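/-
DS programme (S48), brick CONJ/EXT (helper54).

Ring automorphisms of `ℂ` act transitively on the roots of the minimal polynomial over `ℚ`
of an algebraic number:  `exists_ringEquiv_apply_eq`.

Route: the algebraic closure `A` of `ℚ` inside `ℂ` is normal over `ℚ`, so there is
`τ : A ≃ₐ[ℚ] A` with `τ x = y`; choose a transcendence basis `s` of `ℂ` over `A`, extend `τ` to the
polynomial ring on `s` coefficientwise, transport to `Algebra.adjoin A s`, and use that `ℂ` is an
algebraic closure of `Algebra.adjoin A s` (`IsAlgClosure.equivOfEquiv`).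
-/
import Mathlib

set_option autoImplicit false

open Polynomial

namespace Fermat.Agent.DS.Conj.AutExt

/-- Every ring automorphism of a subfield `A` of an algebraically closed field `K` (given as an
algebra with injective structure map) extends to a ring automorphism of `K`. -/
theorem exists_ringEquiv_extending {A K : Type*} [Field A] [Field K] [Algebra A K]
    [IsAlgClosed K] (τ : A ≃+* A) :
    ∃ σ : K ≃+* K, ∀ a : A, σ (algebraMap A K a) = algebraMap A K (τ a) := by
  classical
  obtain ⟨s, hs⟩ := exists_isTranscendenceBasis A K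
  have : IsAlgClosure (Algebra.adjoin A (Set.range ((↑) : s → K))) K :=
    IsAlgClosed.isAlgClosure_of_transcendence_basis _ hs
  let e0 : MvPolynomial s A ≃+* MvPolynomial s A := MvPolynomial.mapEquiv s τ
  let e : Algebra.adjoin A (Set.range ((↑) : s → K)) ≃+*
      Algebra.adjoin A (Set.range ((↑) : s → K)) :=
    (hs.1.aevalEquiv.symm.toRingEquiv.trans e0).trans hs.1.aevalEquiv.toRingEquiv
  refine ⟨IsAlgClosure.equivOfEquiv K K e, fun a => ?_⟩
  have h1 : algebraMap A K a =
      algebraMap (Algebra.adjoin A (Set.range ((↑) : s → K))) K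
        (algebraMap A (Algebra.adjoin A (Set.range ((↑) : s → K))) a) := rfl
  rw [h1, IsAlgClosure.equivOfEquiv_algebraMap]
  have h2 : e (algebraMap A (Algebra.adjoin A (Set.range ((↑) : s → K))) a) =
      algebraMap A (Algebra.adjoin A (Set.range ((↑) : s → K))) (τ a) := by
    have h3 : hs.1.aevalEquiv.symm
        (algebraMap A (Algebra.adjoin A (Set.range ((↑) : s → K))) a) = MvPolynomial.C a := by
      rw [AlgEquiv.symm_apply_eq]
      exact (AlgEquiv.commutes _ a).symm
    change hs.1.aevalEquiv (e0 (hs.1.aevalEquiv.symm _)) = _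
    rw [h3]
    change hs.1.aevalEquiv (MvPolynomial.map (τ : A →+* A) (MvPolynomial.C a)) = _
    rw [MvPolynomial.map_C]
    exact AlgEquiv.commutes _ _
  rw [h2]
  rfl

/-- Ring automorphisms of `ℂ` act transitively on the `ℚ`-conjugates of an algebraic number. -/
theorem exists_ringEquiv_apply_eq (x y : ℂ) (hx : IsIntegral ℚ x)
    (hy : aeval y (minpoly ℚ x) = 0) : ∃ σ : ℂ ≃+* ℂ, σ x = y := by
  have hy' : IsIntegral ℚ y := ⟨minpoly ℚ x, minpoly.monic hx, hy⟩
  let A := algebraicClosure ℚ ℂ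
  have hxA : x ∈ A := (mem_algebraicClosure_iff (F := ℚ) (E := ℂ)).mpr hx.isAlgebraic
  have hyA : y ∈ A := (mem_algebraicClosure_iff (F := ℚ) (E := ℂ)).mpr hy'.isAlgebraic
  have : IsAlgClosure ℚ A := algebraicClosure.isAlgClosure (F := ℚ) (E := ℂ)
  have : Normal ℚ A := IsAlgClosure.normal ℚ A
  have hmin : minpoly ℚ (⟨x, hxA⟩ : A) = minpoly ℚ x :=
    (minpoly.algebraMap_eq (algebraMap A ℂ).injective (⟨x, hxA⟩ : A)).symm
  have hev : aeval (⟨y, hyA⟩ : A) (minpoly ℚ (⟨x, hxA⟩ : A)) = 0 := by
    rw [hmin]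
    apply (algebraMap A ℂ).injective
    rw [map_zero, ← aeval_algebraMap_apply]
    exact hy
  have hxalg : IsAlgebraic ℚ (⟨x, hxA⟩ : A) := Algebra.IsAlgebraic.isAlgebraic _
  obtain ⟨τ, hτ⟩ := minpoly.exists_algEquiv_of_root' hxalg hev
  obtain ⟨σ, hσ⟩ := exists_ringEquiv_extending (A := A) (K := ℂ) (τ : A ≃+* A)
  refine ⟨σ, ?_⟩
  have := hσ ⟨x, hxA⟩
  have h4 : ((τ : A ≃+* A) ⟨x, hxA⟩) = ⟨y, hyA⟩ := hτ
  rw [h4] at this
  exact this

/-- A complex number fixed by all ring automorphisms of `ℂ` and algebraic over `ℚ` is rational. -/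
theorem mem_range_of_fixed (x : ℂ) (hx : IsIntegral ℚ x) (hfix : ∀ σ : ℂ ≃+* ℂ, σ x = x) :
    ∃ r : ℚ, (r : ℂ) = x := by
  -- all roots of the minimal polynomial are equal to `x`, hence the degree is one
  have hroots : ∀ y : ℂ, aeval y (minpoly ℚ x) = 0 → y = x := by
    intro y hy
    obtain ⟨σ, hσ⟩ := exists_ringEquiv_apply_eq x y hx hy
    rw [← hσ, hfix σ]
  have hsep : (minpoly ℚ x).Separable := (minpoly.irreducible hx).separable
  have hsplit : ((minpoly ℚ x).map (algebraMap ℚ ℂ)).Splits := IsAlgClosed.splits _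
  have hnodup : ((minpoly ℚ x).map (algebraMap ℚ ℂ)).roots.Nodup :=
    Polynomial.nodup_roots hsep.map
  have hcard : ((minpoly ℚ x).map (algebraMap ℚ ℂ)).roots.card = (minpoly ℚ x).natDegree := by
    rw [← hsplit.natDegree_eq_card_roots, Polynomial.natDegree_map]
  have hsub : ((minpoly ℚ x).map (algebraMap ℚ ℂ)).roots ≤ {x} := by
    rw [Multiset.le_iff_subset hnodup]
    intro y hy
    rw [Polynomial.mem_roots (Polynomial.map_ne_zero (minpoly.ne_zero hx))] at hy
    rw [Multiset.mem_singleton]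
    apply hroots
    rw [Polynomial.IsRoot, Polynomial.eval_map] at hy
    rw [Polynomial.aeval_def]
    exact hy
  have hdeg : (minpoly ℚ x).natDegree ≤ 1 := by
    rw [← hcard]
    exact (Multiset.card_le_card hsub).trans (by simp)
  have hdeg1 : (minpoly ℚ x).natDegree = 1 := by
    have := minpoly.natDegree_pos hx
    omega
  have hmem : x ∈ (algebraMap ℚ ℂ).range := by
    rw [← minpoly.natDegree_eq_one_iff]
    exact hdeg1
  obtain ⟨r, hr⟩ := hmem
  exact ⟨r, hr⟩

end Fermat.Agent.DS.Conj.AutExt
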