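/-
DS programme (S48), brick CONJ/NORTHCOTT (helper54).

Algebraic integers in `ℂ` of bounded degree all of whose conjugates are bounded form a finite set.
-/
import Mathlib

set_option autoImplicit false

open Polynomial

namespace Fermat.Agent.DS.Conj.Northcott

/-- **Northcott / Kronecker finiteness**: the set of algebraic integers `x ∈ ℂ` of degree at most
`r` all of whose conjugates (complex roots of `minpoly ℤ x`) have norm at most `B` is finite. -/
theorem finite_bounded_algInt (r : ℕ) (B : ℝ) :
    Set.Finite {x : ℂ | IsIntegral ℤ x ∧ (minpoly ℤ x).natDegree ≤ r ∧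
      ∀ y : ℂ, aeval y (minpoly ℤ x) = 0 → ‖y‖ ≤ B} := by
  classical
  set C : ℝ := max B 1 ^ r * (r.choose (r / 2) : ℝ) with hC
  -- the finite set of admissible integer coefficients
  have hU : Set.Finite {m : ℤ | |(m : ℝ)| ≤ C} := by
    have : {m : ℤ | |(m : ℝ)| ≤ C} ⊆ Set.Icc (-⌈C⌉) ⌈C⌉ := by
      intro m hm
      rw [Set.mem_ofPred_eq, abs_le] at hm
      constructor
      · have : (-(⌈C⌉ : ℤ) : ℝ) ≤ m := by
          linarith [Int.le_ceil C, hm.1]
        exact_mod_cast this
      · have : (m : ℝ) ≤ (⌈C⌉ : ℤ) := by linarith [Int.le_ceil C, hm.2]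
        exact_mod_cast this
    exact (Set.finite_Icc _ _).subset this
  have hfin := Polynomial.bUnion_roots_finite (Int.castRingHom ℂ) r hU
  refine hfin.subset ?_
  rintro x ⟨hx, hdeg, hroots⟩
  simp only [Set.mem_iUnion, Finset.mem_coe, Multiset.mem_toFinset, exists_prop]
  refine ⟨minpoly ℤ x, ⟨hdeg, fun i => ?_⟩, ?_⟩
  · -- coefficient bound
    have hmonic : (minpoly ℤ x).Monic := minpoly.monic hx
    have hsplit : ((minpoly ℤ x).map (Int.castRingHom ℂ)).Splits := IsAlgClosed.splits _
    have hr : ∀ z ∈ ((minpoly ℤ x).map (Int.castRingHom ℂ)).roots, ‖z‖ ≤ B := by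
      intro z hz
      apply hroots
      rw [Polynomial.mem_roots (Polynomial.map_monic_ne_zero hmonic)] at hz
      rw [Polynomial.IsRoot, Polynomial.eval_map] at hz
      rw [Polynomial.aeval_def]
      exact hz
    have hb := Polynomial.coeff_bdd_of_roots_le (Int.castRingHom ℂ) hmonic hsplit hdeg hr i
    rw [Polynomial.coeff_map] at hb
    rw [Set.mem_ofPred_eq]
    have hnorm : ‖(Int.castRingHom ℂ) ((minpoly ℤ x).coeff i)‖ = |(((minpoly ℤ x).coeff i : ℤ) : ℝ)| := by
      simp
    rw [hnorm] at hb
    exact hb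
  · rw [Polynomial.mem_roots (Polynomial.map_monic_ne_zero (minpoly.monic hx))]
    rw [Polynomial.IsRoot, Polynomial.eval_map]
    have := minpoly.aeval ℤ x
    rw [Polynomial.aeval_def] at this
    exact this

end Fermat.Agent.DS.Conj.Northcott
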