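/-
DS programme (S48), brick CONJ, main statements (helper54).

For eigen data `(N, ε, f)` with `AutStable N` and integral `a_p`:
* `exists_conjugates`: finitely many automorphisms `τ i` of `ℂ` such that every `ℚ`-conjugate of
  every `a_p` (`p ∤ N`) is some `τ i (a_p)`;
* `finite_small_values`: for every `c`, the set of `a_p` with `Σ_i |τ i (a_p)|² ≤ c` is finite
  (D--S Prop. 5.5, algebraic half).
-/
import Mathlib
import Fermat.Agent.DS.Iface
import Fermat.Agent.DS.Conj.AutExt
import Fermat.Agent.DS.Conj.Orbit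
import Fermat.Agent.DS.Conj.Northcott

set_option autoImplicit false

open CongruenceSubgroup ModularFormClass Polynomial
open scoped MatrixGroups

namespace Fermat.Agent.DS.Conj.Main

open Fermat.Agent.DS.Iface Fermat.Agent.DS.Conj

/-- For an algebraic integer `x`, if every complex root of `minpoly ℚ x` is among finitely many
values `v i` (`i : Fin r`), then the degree of `minpoly ℤ x` is at most `r`. -/
lemma natDegree_minpoly_le {r : ℕ} (x : ℂ) (hx : IsIntegral ℤ x) (v : Fin r → ℂ)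
    (hv : ∀ y : ℂ, aeval y (minpoly ℤ x) = 0 → ∃ i, y = v i) :
    (minpoly ℤ x).natDegree ≤ r := by
  classical
  have hmonic : (minpoly ℤ x).Monic := minpoly.monic hx
  have hirr : Irreducible (minpoly ℤ x) := minpoly.irreducible hx
  have hinj : Function.Injective (Int.castRingHom ℂ) := Int.cast_injective
  -- the image polynomial over `ℂ` is separable
  have hsepQ : ((minpoly ℤ x).map (Int.castRingHom ℚ)).Separable := by
    have hirrQ : Irreducible ((minpoly ℤ x).map (Int.castRingHom ℚ)) :=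
      (Polynomial.Monic.irreducible_iff_irreducible_map_fraction_map (K := ℚ) hmonic).mp hirr
    exact hirrQ.separable
  have hsepC : ((minpoly ℤ x).map (Int.castRingHom ℂ)).Separable := by
    have : (minpoly ℤ x).map (Int.castRingHom ℂ) =
        ((minpoly ℤ x).map (Int.castRingHom ℚ)).map (algebraMap ℚ ℂ) := by
      rw [Polynomial.map_map]
      congr 1
    rw [this]
    exact hsepQ.map
  have hsplit : ((minpoly ℤ x).map (Int.castRingHom ℂ)).Splits := IsAlgClosed.splits _
  have hnodup : ((minpoly ℤ x).map (Int.castRingHom ℂ)).roots.Nodup :=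
    Polynomial.nodup_roots hsepC
  have hcard : ((minpoly ℤ x).map (Int.castRingHom ℂ)).roots.card = (minpoly ℤ x).natDegree := by
    rw [← hsplit.natDegree_eq_card_roots, hmonic.natDegree_map]
  have hsub : ((minpoly ℤ x).map (Int.castRingHom ℂ)).roots.toFinset ⊆
      Finset.image v Finset.univ := by
    intro y hy
    rw [Multiset.mem_toFinset, Polynomial.mem_roots (Polynomial.map_monic_ne_zero hmonic)] at hy
    rw [Polynomial.IsRoot, Polynomial.eval_map] at hy
    obtain ⟨i, hi⟩ := hv y (by rw [Polynomial.aeval_def]; exact hy)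
    rw [Finset.mem_image]
    exact ⟨i, Finset.mem_univ _, hi.symm⟩
  calc (minpoly ℤ x).natDegree = ((minpoly ℤ x).map (Int.castRingHom ℂ)).roots.card := hcard.symm
    _ = ((minpoly ℤ x).map (Int.castRingHom ℂ)).roots.toFinset.card := by
        rw [Multiset.toFinset_card_of_nodup hnodup]
    _ ≤ (Finset.image v Finset.univ).card := Finset.card_le_card hsub
    _ ≤ Finset.univ.card := Finset.card_image_le
    _ = r := by simp

/-- A complex root of `minpoly ℤ x` is a root of `minpoly ℚ x` (for `x` integral). -/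
lemma aeval_minpoly_rat_of_int (x y : ℂ) (hx : IsIntegral ℤ x)
    (hy : aeval y (minpoly ℤ x) = 0) : aeval y (minpoly ℚ x) = 0 := by
  rw [minpoly.isIntegrallyClosed_eq_field_fractions' ℚ hx, Polynomial.aeval_map_algebraMap]
  exact hy

variable {N : ℕ} [NeZero N] {ε : DirichletCharacter ℂ N} {f : CuspForm (Gamma1 N) 1}

/-- **CONJ, first form**: finitely many automorphisms of `ℂ` produce all conjugates of all
`a_p`, `p ∤ N`. -/
theorem exists_conjugates (hf : IsEigen N ε f) (hA : AutStable N)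
    (hint : ∀ p : ℕ, p.Prime → ¬ p ∣ N → IsIntegral ℤ (qCoeff f p)) :
    ∃ (r : ℕ) (τ : Fin r → (ℂ ≃+* ℂ)),
      (∀ σ : ℂ ≃+* ℂ, ∃ i : Fin r,
        (∀ p : ℕ, p.Prime → ¬ p ∣ N → σ (qCoeff f p) = τ i (qCoeff f p)) ∧
        ∀ u : ZMod N, σ (ε u) = τ i (ε u)) ∧
      ∀ p : ℕ, p.Prime → ¬ p ∣ N → ∀ y : ℂ, aeval y (minpoly ℤ (qCoeff f p)) = 0 →
        ∃ i : Fin r, y = τ i (qCoeff f p) := by
  obtain ⟨r, τ, hτ⟩ := Orbit.finite_orbit hf hA
  refine ⟨r, τ, hτ, fun p hp hpN y hy => ?_⟩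
  have hx := hint p hp hpN
  have hxQ : IsIntegral ℚ (qCoeff f p) := hx.tower_top
  obtain ⟨σ, hσ⟩ := AutExt.exists_ringEquiv_apply_eq (qCoeff f p) y hxQ
    (aeval_minpoly_rat_of_int _ _ hx hy)
  obtain ⟨i, hi, _⟩ := hτ σ
  exact ⟨i, by rw [← hσ, hi p hp hpN]⟩

/-- **CONJ, second form** (algebraic half of D--S Prop. 5.5): with the automorphisms `τ i` of
`exists_conjugates`, for every `c` the `a_p` with `Σ_i |τ i (a_p)|² ≤ c` form a finite set. -/
theorem finite_small_values (hf : IsEigen N ε f) (hA : AutStable N)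
    (hint : ∀ p : ℕ, p.Prime → ¬ p ∣ N → IsIntegral ℤ (qCoeff f p)) :
    ∃ (r : ℕ) (τ : Fin r → (ℂ ≃+* ℂ)),
      (∀ σ : ℂ ≃+* ℂ, ∃ i : Fin r,
        (∀ p : ℕ, p.Prime → ¬ p ∣ N → σ (qCoeff f p) = τ i (qCoeff f p)) ∧
        ∀ u : ZMod N, σ (ε u) = τ i (ε u)) ∧
      ∀ c : ℝ, Set.Finite {x : ℂ | ∃ p : ℕ, p.Prime ∧ ¬ p ∣ N ∧ x = qCoeff f p ∧
        ∑ i : Fin r, ‖τ i (qCoeff f p)‖ ^ 2 ≤ c} := by
  obtain ⟨r, τ, hτ, hconj⟩ := exists_conjugates hf hA hint
  refine ⟨r, τ, hτ, fun c => ?_⟩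
  refine (Northcott.finite_bounded_algInt r (Real.sqrt c)).subset ?_
  rintro x ⟨p, hp, hpN, rfl, hsum⟩
  refine ⟨hint p hp hpN, ?_, fun y hy => ?_⟩
  · exact natDegree_minpoly_le _ (hint p hp hpN) (fun i => τ i (qCoeff f p))
      (fun y hy => hconj p hp hpN y hy)
  · obtain ⟨i, rfl⟩ := hconj p hp hpN y hy
    apply Real.le_sqrt_of_sq_le
    refine le_trans ?_ hsum
    exact Finset.single_le_sum (f := fun i : Fin r => ‖τ i (qCoeff f p)‖ ^ 2)
      (fun j _ => sq_nonneg _) (Finset.mem_univ i)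

end Fermat.Agent.DS.Conj.Main
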