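/-
DS programme (S48): `Iface.FiniteValues` (D--S Prop. 5.5) PROVED, by gluing
helper2's analytic chain (`DS/Rankin`) with the algebraic brick CONJ (`DS/Conj/Main`). (helper54)
-/
import Mathlib
import Fermat.Agent.DS.Iface
import Fermat.Agent.DS.Conj.Main
import Fermat.Agent.DS.Rankin.CuspBound
import Fermat.Agent.DS.Rankin.Density
import Fermat.Agent.DS.Rankin.IfaceAdapter

set_option autoImplicit false

open CongruenceSubgroup ModularFormClass UpperHalfPlane
open scoped MatrixGroups

namespace Fermat.Agent.DS.Conj.FiniteValues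

open Fermat.Agent.DS.Iface Fermat.Agent.DS.Conj Fermat.Agent.DS.Rankin

/-- Monotonicity of helper2's density notion, only tested on primes. -/
lemma upperDensityLE_mono_prime {X Y : Set ℕ} {η : ℝ} (h : Density.UpperDensityLE Y η)
    (hXY : ∀ p : ℕ, p.Prime → p ∈ X → p ∈ Y) : Density.UpperDensityLE X η := by
  obtain ⟨B, hB⟩ := h
  exact ⟨B, fun s hs hs2 t ht =>
    hB s hs hs2 t fun p hp => ⟨(ht p hp).1, hXY p (ht p hp).1 (ht p hp).2⟩⟩

/-- **D--S Prop. 5.5** in the interface shape. -/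
theorem finiteValues : Iface.FiniteValues := by
  intro N _ ε f hf hA hint η hη
  classical
  obtain ⟨r, τ, hτ, hfin⟩ := Main.finite_small_values hf hA hint
  obtain ⟨N', hN', hconj⟩ := hA
  have : NeZero N' := ⟨hN'⟩
  -- `Fin r` is nonempty since the identity is represented
  obtain ⟨i0, -⟩ := hτ (RingEquiv.refl ℂ)
  have : Nonempty (Fin r) := ⟨i0⟩
  have hrpos : (0 : ℝ) < (Fintype.card (Fin r) : ℝ) := by
    have : 0 < Fintype.card (Fin r) := Fintype.card_pos
    exact_mod_cast this
  -- the conjugate sequences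
  let b : Fin r → ℕ → ℂ := fun i n => τ i (qCoeff f n)
  have hb : ∀ i, Euler.SqfreeMult (b i) N := by
    intro i
    refine ⟨?_, fun p hp hpN n hn => ?_⟩
    · change τ i (qCoeff f 1) = 1
      rw [hf.one, map_one]
    · have h := hf.hecke p hp hpN n
      rw [if_neg hn, mul_zero, add_zero] at h
      change τ i (qCoeff f (p * n)) = τ i (qCoeff f p) * τ i (qCoeff f n)
      rw [h, map_mul]
  have hS : ∀ i, ∃ C : ℝ, ∀ X : ℕ, 1 ≤ X →
      ∑ n ∈ Finset.range (X + 1), ‖b i n‖ ^ 2 ≤ C * X := by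
    intro i
    obtain ⟨g, hg⟩ := hconj (τ i) f
    obtain ⟨C, -, hC⟩ := CuspBound.exists_sum_norm_sq_le N' g
    refine ⟨C, fun X hX => ?_⟩
    have := hC X hX
    have heq : ∀ n, (qExpansion 1 g).coeff n = b i n := fun n => hg n
    simpa only [heq] using this
  set c : ℝ := (Fintype.card (Fin r) : ℝ) ^ 2 / η with hc
  have hcpos : 0 < c := by positivity
  have hlarge := Density.upperDensityLE_large (b := b) (N := N) hb hS hcpos
  have hη' : (Fintype.card (Fin r) : ℝ) ^ 2 / c = η := by
    rw [hc]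
    field_simp
  rw [hη'] at hlarge
  refine ⟨(hfin c).toFinset, ?_⟩
  apply IfaceAdapter.upperDensityLE_iface
  refine upperDensityLE_mono_prime hlarge fun p hp hpX => ?_
  obtain ⟨hpN, hpY⟩ := hpX
  refine ⟨hpN, ?_⟩
  by_contra hle
  rw [not_lt] at hle
  apply hpY
  rw [Set.Finite.mem_toFinset]
  exact ⟨p, hp, hpN, rfl, hle⟩

end Fermat.Agent.DS.Conj.FiniteValues
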