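/-
DS programme (S48), brick CONJ/ORB, abstract part (helper54).

* `linearIndependent_of_injective_eigensystem`: simultaneous eigenvectors of a family of linear
  maps with pairwise distinct eigensystems are linearly independent.
* `finite_eigensystems`: in a finite-dimensional subspace only finitely many eigensystems occur.
-/
import Mathlib

set_option autoImplicit false

namespace Fermat.Agent.DS.Conj.Eigensys

variable {K E ι : Type*} [Field K] [AddCommGroup E] [Module K E]

/-- Simultaneous eigenvectors of a family of linear maps with pairwise distinct eigensystems are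
linearly independent. -/
theorem linearIndependent_of_injective_eigensystem (T : ι → E →ₗ[K] E) {J : Type*}
    (v : J → E) (μ : J → ι → K) (hv : ∀ j, v j ≠ 0)
    (hT : ∀ j i, T i (v j) = μ j i • v j) (hμ : Function.Injective μ) :
    LinearIndependent K v := by
  classical
  rw [linearIndependent_iff']
  intro s
  induction s using Finset.induction_on with
  | empty => intro g _ j hj; simp at hj
  | insert j0 s hj0 ih =>
    intro g hg
    -- all coefficients on `s` vanish
    have hs : ∀ j ∈ s, g j = 0 := by
      intro j hj
      have hne : μ j ≠ μ j0 := fun h => hj0 (hμ h ▸ hj)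
      obtain ⟨i, hi⟩ : ∃ i, μ j i ≠ μ j0 i := by
        by_contra hcon
        exact hne (funext fun i => by_contra fun h => hcon ⟨i, h⟩)
      have h1 : ∑ j ∈ insert j0 s, (g j * (μ j i - μ j0 i)) • v j = 0 := by
        have h2 : T i (∑ j ∈ insert j0 s, g j • v j) = 0 := by rw [hg, map_zero]
        rw [map_sum] at h2
        have h3 : ∑ j ∈ insert j0 s, (g j * (μ j i - μ j0 i)) • v j =
            ∑ j ∈ insert j0 s, T i (g j • v j) - μ j0 i • ∑ j ∈ insert j0 s, g j • v j := by
          rw [Finset.smul_sum, ← Finset.sum_sub_distrib]
          refine Finset.sum_congr rfl fun j _ => ?_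
          rw [map_smul, hT, smul_smul, smul_smul, ← sub_smul]
          congr 1
          ring
        rw [h3, h2, hg, smul_zero, sub_zero]
      rw [Finset.sum_insert hj0, sub_self, mul_zero, zero_smul, zero_add] at h1
      have h4 := ih (fun j => g j * (μ j i - μ j0 i)) h1 j hj
      rcases mul_eq_zero.mp h4 with h | h
      · exact h
      · exact absurd (sub_eq_zero.mp h) hi
    intro j hj
    rcases Finset.mem_insert.mp hj with rfl | hj'
    · rw [Finset.sum_insert hj0] at hg
      have h5 : ∑ j ∈ s, g j • v j = 0 :=
        Finset.sum_eq_zero fun j hj => by rw [hs j hj, zero_smul]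
      rw [h5, add_zero] at hg
      rcases smul_eq_zero.mp hg with h | h
      · exact h
      · exact absurd h (hv _)
    · exact hs j hj'

/-- In a finite-dimensional subspace only finitely many simultaneous eigensystems occur. -/
theorem finite_eigensystems (T : ι → E →ₗ[K] E) (W : Submodule K E) [FiniteDimensional K W] :
    Set.Finite {μ : ι → K | ∃ v ∈ W, v ≠ 0 ∧ ∀ i, T i v = μ i • v} := by
  classical
  set X : Set (ι → K) := {μ : ι → K | ∃ v ∈ W, v ≠ 0 ∧ ∀ i, T i v = μ i • v} with hX
  choose! w hwW hw0 hwT using fun (μ : ι → K) (h : μ ∈ X) => h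
  -- the family of chosen eigenvectors, as elements of `W`
  let v : X → W := fun μ => ⟨w μ.1 , hwW μ.1 μ.2⟩
  have hli : LinearIndependent K (fun μ : X => (v μ : E)) := by
    refine linearIndependent_of_injective_eigensystem T (fun μ : X => (v μ : E))
      (fun μ : X => μ.1) (fun μ => hw0 μ.1 μ.2) (fun μ i => hwT μ.1 μ.2 i) Subtype.val_injective
  have hli' : LinearIndependent K v := by
    have : (fun μ : X => (v μ : E)) = W.subtype ∘ v := rfl
    rw [this] at hli
    exact LinearIndependent.of_comp _ hli
  have : Finite X := hli'.finite_of_isNoetherian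
  exact Set.toFinite X

end Fermat.Agent.DS.Conj.Eigensys
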