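/-
DS programme (S48), brick CONJ/ORB, modular-form part (helper54).

The space of `q`-expansion sequences of weight-one cusp forms on `Gamma1 M` is a
finite-dimensional subspace of `ℕ → ℂ` (Sturm bound from the Prelude).
-/
import Mathlib
import Fermat.Prelude.Def_FLTPrelim_Modularity
import Fermat.Prelude.Thm_ModularForm_sturm_bound_of_isArithmetic

set_option autoImplicit false

open CongruenceSubgroup ModularFormClass UpperHalfPlane
open scoped MatrixGroups

namespace Fermat.Agent.DS.Conj.QSpace

lemma one_mem_strictPeriods_Gamma1 (M : ℕ) :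
    (1 : ℝ) ∈ (Gamma1 M : Subgroup (GL (Fin 2) ℝ)).strictPeriods := by simp

variable (M : ℕ) (k : ℤ)

lemma qCoeff_add (f g : CuspForm (Gamma1 M) k) (n : ℕ) :
    qCoeff (⇑(f + g)) n = qCoeff f n + qCoeff g n := by
  unfold qCoeff
  rw [FunLike.coe_add,
    ModularForm.qExpansion_add one_pos (one_mem_strictPeriods_Gamma1 M) f g, map_add]

lemma qCoeff_smul (c : ℂ) (f : CuspForm (Gamma1 M) k) (n : ℕ) :
    qCoeff (⇑(c • f)) n = c * qCoeff f n := by
  unfold qCoeff
  rw [FunLike.coe_smul,
    ModularForm.qExpansion_smul one_pos (one_mem_strictPeriods_Gamma1 M) c f,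
    PowerSeries.coeff_smul, smul_eq_mul]

/-- The `q`-coefficient map as a linear map to sequences. -/
noncomputable def qMap : CuspForm (Gamma1 M) k →ₗ[ℂ] (ℕ → ℂ) where
  toFun g n := qCoeff g n
  map_add' f g := by funext n; exact qCoeff_add M k f g n
  map_smul' c f := by funext n; exact qCoeff_smul M k c f n

@[simp] lemma qMap_apply (g : CuspForm (Gamma1 M) k) (n : ℕ) : qMap M k g n = qCoeff g n := rfl

/-- The Sturm number for `Gamma1 M` in weight `k`. -/
noncomputable def sturm : ℕ :=
  (k * (Gamma1 M : Subgroup (GL (Fin 2) ℝ)).relIndex 𝒮ℒ).toNat / 12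

variable [NeZero M]

/-- A cusp form on `Gamma1 M` all of whose first `sturm + 1` coefficients vanish is zero. -/
theorem eq_zero_of_qCoeff_eq_zero (g : CuspForm (Gamma1 M) k)
    (h : ∀ n ≤ sturm M k, qCoeff g n = 0) : g = 0 := by
  have hzero : CuspForm.toModularFormₗ g = 0 := by
    refine ModularForm.sturm_bound_of_isArithmetic (one_mem_strictPeriods_Gamma1 M) ?_
    refine lt_of_lt_of_le (by exact_mod_cast Nat.lt_succ_self _)
      (PowerSeries.nat_le_order _ _ fun n hn => ?_)
    have := h n (Nat.lt_succ_iff.mp hn)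
    unfold qCoeff at this
    rw [CuspForm.toModularFormₗ_eq_coe]
    exact this
  exact CuspForm.toModularFormₗ_injective (by rw [hzero, map_zero])

theorem qMap_injective : Function.Injective (qMap M k) := by
  rw [← LinearMap.ker_eq_bot, LinearMap.ker_eq_bot']
  intro g hg
  refine eq_zero_of_qCoeff_eq_zero M k g fun n _ => ?_
  have := congrFun hg n
  simpa using this

/-- Truncation of the `q`-expansion to the first `sturm + 1` coefficients. -/
noncomputable def truncMap : CuspForm (Gamma1 M) k →ₗ[ℂ] (Fin (sturm M k + 1) → ℂ) where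
  toFun g i := qCoeff g i
  map_add' f g := by funext i; exact qCoeff_add M k f g i
  map_smul' c f := by funext i; exact qCoeff_smul M k c f i

theorem truncMap_injective : Function.Injective (truncMap M k) := by
  rw [← LinearMap.ker_eq_bot, LinearMap.ker_eq_bot']
  intro g hg
  refine eq_zero_of_qCoeff_eq_zero M k g fun n hn => ?_
  have := congrFun hg ⟨n, Nat.lt_succ_iff.mpr hn⟩
  simpa [truncMap] using this

instance finiteDimensional_cuspForm : FiniteDimensional ℂ (CuspForm (Gamma1 M) k) :=
  Module.Finite.of_injective (truncMap M k) (truncMap_injective M k)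

/-- The space of `q`-expansion sequences. -/
noncomputable def qSpace : Submodule ℂ (ℕ → ℂ) := LinearMap.range (qMap M k)

instance finiteDimensional_qSpace : FiniteDimensional ℂ (qSpace M k) := by
  unfold qSpace
  infer_instance

omit [NeZero M] in
lemma mem_qSpace_iff (a : ℕ → ℂ) :
    a ∈ qSpace M k ↔ ∃ g : CuspForm (Gamma1 M) k, ∀ n, qCoeff g n = a n := by
  unfold qSpace
  rw [LinearMap.mem_range]
  constructor
  · rintro ⟨g, rfl⟩; exact ⟨g, fun n => rfl⟩
  · rintro ⟨g, hg⟩; exact ⟨g, funext hg⟩

end Fermat.Agent.DS.Conj.QSpace
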