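/-
DS programme (S48), brick CONJ/ORB (helper54).

`finite_orbit`: for eigen data `(N, ε, f)` and `AutStable N`, the orbit of the eigensystem
`((a_p)_{p ∤ N}, ε)` under `Aut ℂ` is finite: there are finitely many automorphisms `τ i` such that
every automorphism agrees with some `τ i` on all `a_p` (`p ∤ N` prime) and on all values of `ε`.

Proof: the conjugate sequences `σ(a_n)` all lie in the finite-dimensional space of `q`-expansions
of `S_1(Gamma1 N')`, they are simultaneous eigenvectors of the formal Hecke operators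
`T_p^χ` (`χ = σ ∘ ε`, finitely many possibilities), and simultaneous eigenvectors with distinct
eigensystems are linearly independent.
-/
import Mathlib
import Fermat.Agent.DS.Iface
import Fermat.Agent.DS.Conj.Eigensys
import Fermat.Agent.DS.Conj.QSpace

set_option autoImplicit false

open CongruenceSubgroup ModularFormClass
open scoped MatrixGroups

namespace Fermat.Agent.DS.Conj.Orbit

open Fermat.Agent.DS.Iface Fermat.Agent.DS.Conj

/-- The formal Hecke operator `T_p` with nebentypus value `c` on sequences. -/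
noncomputable def heckeOp (c : ℂ) (p : ℕ) : (ℕ → ℂ) →ₗ[ℂ] (ℕ → ℂ) where
  toFun y n := y (p * n) + c * (if p ∣ n then y (n / p) else 0)
  map_add' y z := by
    funext n
    by_cases h : p ∣ n <;> simp [h] <;> ring
  map_smul' a y := by
    funext n
    by_cases h : p ∣ n <;> simp [h] <;> ring

lemma heckeOp_apply (c : ℂ) (p : ℕ) (y : ℕ → ℂ) (n : ℕ) :
    heckeOp c p y n = y (p * n) + c * (if p ∣ n then y (n / p) else 0) := rfl

/-- The family of operators used for a fixed "character" `χ : ZMod N → ℂ`: the formal Hecke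
operator at good primes, zero elsewhere. -/
noncomputable def opFamily (N : ℕ) (χ : ZMod N → ℂ) (p : ℕ) : (ℕ → ℂ) →ₗ[ℂ] (ℕ → ℂ) :=
  open Classical in if p.Prime ∧ ¬ p ∣ N then heckeOp (χ (p : ZMod N)) p else 0

/-- The eigenvalue system attached to a sequence. -/
noncomputable def sysOf (N : ℕ) (a : ℕ → ℂ) (p : ℕ) : ℂ :=
  open Classical in if p.Prime ∧ ¬ p ∣ N then a p else 0

variable {N : ℕ} [NeZero N] {ε : DirichletCharacter ℂ N} {f : CuspForm (Gamma1 N) 1}

/-- Conjugating the Hecke relations by a ring automorphism. -/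
lemma opFamily_conj (hf : IsEigen N ε f) (σ : ℂ ≃+* ℂ) (p : ℕ) :
    opFamily N (fun u => σ (ε u)) p (fun n => σ (qCoeff f n)) =
      sysOf N (fun n => σ (qCoeff f n)) p • (fun n => σ (qCoeff f n)) := by
  classical
  unfold opFamily sysOf
  by_cases hp : p.Prime ∧ ¬ p ∣ N
  · rw [if_pos hp, if_pos hp]
    funext n
    rw [heckeOp_apply, Pi.smul_apply, smul_eq_mul]
    have h := congrArg σ (hf.hecke p hp.1 hp.2 n)
    rw [map_add, map_mul, map_mul] at h
    by_cases hd : p ∣ n
    · simp only [if_pos hd] at h ⊢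
      exact h
    · simp only [if_neg hd, map_zero] at h ⊢
      exact h
  · rw [if_neg hp, if_neg hp, zero_smul, LinearMap.zero_apply]

/-- The values of a Dirichlet character lie in a fixed finite set. -/
lemma finite_values (N : ℕ) [NeZero N] :
    Set.Finite {z : ℂ | z = 0 ∨ z ^ (Nat.totient N) = 1} := by
  have h1 : Set.Finite {z : ℂ | z ^ (Nat.totient N) = 1} := by
    have hpos : 0 < Nat.totient N := Nat.totient_pos.mpr (Nat.pos_of_ne_zero (NeZero.ne N))
    have : {z : ℂ | z ^ (Nat.totient N) = 1} ⊆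
        ((Polynomial.X ^ (Nat.totient N) - 1 : Polynomial ℂ).roots.toFinset : Set ℂ) := by
      intro z hz
      have hne : (Polynomial.X ^ (Nat.totient N) - 1 : Polynomial ℂ) ≠ 0 :=
        Polynomial.X_pow_sub_C_ne_zero hpos 1
      simp only [Finset.mem_coe, Multiset.mem_toFinset]
      rw [Polynomial.mem_roots hne]
      simp only [Polynomial.IsRoot, Polynomial.eval_sub, Polynomial.eval_pow, Polynomial.eval_X,
        Polynomial.eval_one]
      rw [Set.mem_setOf_eq] at hz
      rw [hz, sub_self]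
    exact (Finset.finite_toSet _).subset this
  have : {z : ℂ | z = 0 ∨ z ^ (Nat.totient N) = 1} = {0} ∪ {z : ℂ | z ^ (Nat.totient N) = 1} := by
    ext z; simp
  rw [this]
  exact (Set.finite_singleton 0).union h1

lemma conj_value_mem (σ : ℂ ≃+* ℂ) (u : ZMod N) :
    σ (ε u) ∈ {z : ℂ | z = 0 ∨ z ^ (Nat.totient N) = 1} := by
  by_cases hu : IsUnit u
  · right
    obtain ⟨v, rfl⟩ := hu
    rw [← map_pow, ← map_pow, ← Units.val_pow_eq_pow_val, ZMod.pow_totient, Units.val_one, map_one,
      map_one]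
  · left
    rw [MulChar.map_nonunit ε hu, map_zero]

/-- The set of conjugate characters is finite. -/
lemma finite_conj_characters (ε : DirichletCharacter ℂ N) :
    Set.Finite (Set.range fun σ : ℂ ≃+* ℂ => (fun u : ZMod N => σ (ε u))) := by
  have hfin : Set.Finite (Set.pi Set.univ
      (fun _ : ZMod N => {z : ℂ | z = 0 ∨ z ^ (Nat.totient N) = 1})) :=
    Set.Finite.pi fun _ => finite_values N
  refine hfin.subset ?_
  rintro χ ⟨σ, rfl⟩
  intro u _
  exact conj_value_mem σ u

/-- The system of a conjugate: the conjugate character together with the conjugate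
eigenvalues at good primes. -/
noncomputable def sysMap (N : ℕ) (ε : DirichletCharacter ℂ N) (f : CuspForm (Gamma1 N) 1)
    (σ : ℂ ≃+* ℂ) : (ZMod N → ℂ) × (ℕ → ℂ) :=
  (fun u => σ (ε u), sysOf N (fun n => σ (qCoeff f n)))

theorem finite_range_sysMap (hf : IsEigen N ε f) (hA : AutStable N) :
    Set.Finite (Set.range (sysMap N ε f)) := by
  classical
  obtain ⟨N', hN', hconj⟩ := hA
  haveI : NeZero N' := ⟨hN'⟩
  -- the set of all possible pairs
  have hsub : Set.range (sysMap N ε f) ⊆
      ⋃ χ ∈ Set.range (fun σ : ℂ ≃+* ℂ => (fun u : ZMod N => σ (ε u))),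
        (({χ} : Set (ZMod N → ℂ)) ×ˢ
          {μ : ℕ → ℂ | ∃ v ∈ QSpace.qSpace N' 1, v ≠ 0 ∧ ∀ p, opFamily N χ p v = μ p • v}) := by
    rintro _ ⟨σ, rfl⟩
    simp only [Set.mem_iUnion, Set.mem_prod, Set.mem_singleton_iff, Set.mem_setOf_eq]
    refine ⟨fun u => σ (ε u), ⟨σ, rfl⟩, rfl, fun n => σ (qCoeff f n), ?_, ?_, ?_⟩
    · rw [QSpace.mem_qSpace_iff]
      exact hconj σ f
    · intro h0
      have := congrFun h0 1
      simp only [hf.one, map_one, Pi.zero_apply] at this
      exact one_ne_zero this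
    · intro p
      exact opFamily_conj hf σ p
  refine Set.Finite.subset ?_ hsub
  refine Set.Finite.biUnion (finite_conj_characters ε) fun χ _ => ?_
  exact (Set.finite_singleton χ).prod (Eigensys.finite_eigensystems _ _)

/-- **ORB**: finitely many automorphisms represent the whole `Aut ℂ`-orbit of the eigensystem. -/
theorem finite_orbit (hf : IsEigen N ε f) (hA : AutStable N) :
    ∃ (r : ℕ) (τ : Fin r → (ℂ ≃+* ℂ)), ∀ σ : ℂ ≃+* ℂ, ∃ i : Fin r,
      (∀ p : ℕ, p.Prime → ¬ p ∣ N → σ (qCoeff f p) = τ i (qCoeff f p)) ∧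
      ∀ u : ZMod N, σ (ε u) = τ i (ε u) := by
  classical
  have hfin := finite_range_sysMap hf hA
  haveI : Finite (Set.range (sysMap N ε f)) := hfin
  obtain ⟨r, ⟨e⟩⟩ := Finite.exists_equiv_fin (Set.range (sysMap N ε f))
  choose s hs using fun x : Set.range (sysMap N ε f) => x.2
  refine ⟨r, fun i => s (e.symm i), fun σ => ?_⟩
  refine ⟨e ⟨sysMap N ε f σ, ⟨σ, rfl⟩⟩, ?_⟩
  have hEq : sysMap N ε f (s (e.symm (e ⟨sysMap N ε f σ, ⟨σ, rfl⟩⟩))) = sysMap N ε f σ := by
    rw [Equiv.symm_apply_apply, hs]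
  have h1 := congrArg Prod.fst hEq
  have h2 := congrArg Prod.snd hEq
  refine ⟨fun p hp hpN => ?_, fun u => ?_⟩
  · have := congrFun h2 p
    simp only [sysMap, sysOf, if_pos (And.intro hp hpN)] at this
    exact this.symm
  · have := congrFun h1 u
    simp only [sysMap] at this
    exact this.symm

end Fermat.Agent.DS.Conj.Orbit
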